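import Mathlib

/-!
# RIBET / W-ALGP leaf WPS (helper754): the abstract CLIMB (Mathlib only)

`O ≤ V` subrings of a field `F`, `ϖ ∈ O` with

* `cap`  : `ϖ V ∩ O = ϖ O`                       (`v ∈ V`, `ϖ v ∈ O ⟹ v ∈ O`);
* `root` : `p`-th roots modulo `ϖ` descend        (`γ ∈ V`, `β ∈ O`, `γ^p ≡ β mod ϖ V` ⟹
           `γ ≡ γ₀ mod ϖ V` for some `γ₀ ∈ O`);
* `unit` : `1 + ϖ O ⊆ Oˣ`;
* `p = κ ϖ^(e (p-1))`, `κ ∈ O`                    (`ϖ^e` is the depth of `λ = ζ_p - 1`).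

`climb`: if `u ∈ 1 + ϖ^(p e + 1) V` and `u d₀^p ∈ Oˣ` with `d₀ ∈ V`, then there is `θ ∈ Oˣ`
with `d₀ θ⁻¹ ∈ 1 + ϖ^e V` and `u (d₀ θ⁻¹)^p ∈ 1 + ϖ^(p e) O`.
-/

set_option autoImplicit false

namespace Fermat.Agent.Ribet.H754

section Climb

variable {F : Type*} [Field F]

/-- `(1 + y)^p = 1 + y^p + p y r` with `r` in the subring. -/
theorem one_add_pow_prime_mem {p : ℕ} (hp : p.Prime) (S : Subring F) {y : F} (hy : y ∈ S) :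
    ∃ r ∈ S, (1 + y) ^ p = 1 + y ^ p + (p : F) * y * r := by
  obtain ⟨r, hr⟩ := exists_add_pow_prime_eq hp (1 : S) ⟨y, hy⟩
  refine ⟨r, r.2, ?_⟩
  have := congrArg (Subtype.val) hr
  simpa using this

/-- `(1 + ϖ^s γ)^p = 1 + ϖ^(p s) (γ^p + ϖ^((e-s)(p-1)) v)` when `p = κ ϖ^(e (p-1))`. -/
theorem one_add_pow_mem {p e : ℕ} (hp : p.Prime) (S : Subring F) {ϖ κ : F} (hϖ : ϖ ∈ S)
    (hκ : κ ∈ S) (hpe : (p : F) = κ * ϖ ^ (e * (p - 1))) {s : ℕ} (hs : s ≤ e) {γ : F}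
    (hγ : γ ∈ S) :
    ∃ v ∈ S, (1 + ϖ ^ s * γ) ^ p
      = 1 + ϖ ^ (p * s) * (γ ^ p + ϖ ^ ((e - s) * (p - 1)) * v) := by
  obtain ⟨r, hr, h⟩ := one_add_pow_prime_mem hp S (S.mul_mem (S.pow_mem hϖ s) hγ)
  refine ⟨κ * γ * r, S.mul_mem (S.mul_mem hκ hγ) hr, ?_⟩
  rw [h, hpe]
  have hexp : e * (p - 1) + s = p * s + (e - s) * (p - 1) := by
    obtain ⟨k, rfl⟩ := Nat.exists_eq_add_of_le hs
    obtain ⟨q, rfl⟩ : ∃ q, p = q + 1 := ⟨p - 1, (Nat.succ_pred_eq_of_pos hp.pos).symm⟩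
    simp only [Nat.add_sub_cancel, Nat.add_sub_cancel_left]
    ring
  have h2 : ϖ ^ (e * (p - 1)) * ϖ ^ s = ϖ ^ (p * s) * ϖ ^ ((e - s) * (p - 1)) := by
    rw [← pow_add, ← pow_add, hexp]
  rw [mul_pow, ← pow_mul, mul_comm s p]
  linear_combination (κ * γ * r) * h2

/-- The hypotheses of the climb. -/
structure ClimbCtx (O V : Subring F) (ϖ : F) (p : ℕ) : Prop where
  le : O ≤ V
  mem : ϖ ∈ O
  ne_zero : ϖ ≠ 0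
  cap : ∀ v ∈ V, ϖ * v ∈ O → v ∈ O
  root : ∀ γ ∈ V, ∀ β ∈ O, (∃ v ∈ V, γ ^ p - β = ϖ * v) → ∃ γ₀ ∈ O, ∃ v ∈ V, γ - γ₀ = ϖ * v
  unit : ∀ o ∈ O, 1 + ϖ * o ≠ 0 ∧ (1 + ϖ * o)⁻¹ ∈ O

variable {O V : Subring F} {ϖ : F} {p : ℕ}

theorem ClimbCtx.cap_pow (h : ClimbCtx O V ϖ p) (k : ℕ) :
    ∀ v ∈ V, ϖ ^ k * v ∈ O → v ∈ O := by
  induction k with
  | zero =>
    intro v _ hv
    simpa using hv
  | succ k ih =>
    intro v hv hv'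
    have h1 : ϖ * (ϖ ^ k * v) ∈ O := by
      rw [← mul_assoc, ← pow_succ']
      exact hv'
    exact ih v hv (h.cap _ (V.mul_mem (V.pow_mem (h.le h.mem) k) hv) h1)

/-- `1 + ϖ^(s+1) o` is a unit of `O`. -/
theorem ClimbCtx.unit_pow (h : ClimbCtx O V ϖ p) {s : ℕ} (hs : 0 < s) {o : F} (ho : o ∈ O) :
    1 + ϖ ^ s * o ≠ 0 ∧ (1 + ϖ ^ s * o)⁻¹ ∈ O := by
  obtain ⟨k, rfl⟩ : ∃ k, s = k + 1 := ⟨s - 1, by omega⟩
  have := h.unit (ϖ ^ k * o) (O.mul_mem (O.pow_mem h.mem k) ho)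
  rwa [← mul_assoc, ← pow_succ'] at this

/-- The product `u (1 + ϖ^s γ)^p` for `u ∈ 1 + ϖ^(p e + 1) V`. -/
theorem deep_mul {e : ℕ} (hp : p.Prime) {κ : F} (hϖ : ϖ ∈ V) (hκ : κ ∈ V)
    (hpe : (p : F) = κ * ϖ ^ (e * (p - 1))) {u vu : F} (hvu : vu ∈ V)
    (hu : u = 1 + ϖ ^ (p * e + 1) * vu) {s : ℕ} (hs : s ≤ e) {γ : F} (hγ : γ ∈ V) :
    ∃ T ∈ V, u * (1 + ϖ ^ s * γ) ^ p = 1 + ϖ ^ (p * s) * T ∧
      (s < e → ∃ W ∈ V, T = γ ^ p + ϖ * W) := by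
  obtain ⟨v, hv, hX⟩ := one_add_pow_mem hp V hϖ hκ hpe hs hγ
  have hXV : (1 + ϖ ^ s * γ) ^ p ∈ V :=
    V.pow_mem (V.add_mem V.one_mem (V.mul_mem (V.pow_mem hϖ s) hγ)) p
  have hexp : p * e + 1 = p * s + (p * (e - s) + 1) := by
    obtain ⟨k, rfl⟩ := Nat.exists_eq_add_of_le hs
    simp only [Nat.add_sub_cancel_left]
    ring
  refine ⟨γ ^ p + ϖ ^ ((e - s) * (p - 1)) * v + ϖ ^ (p * (e - s) + 1) * vu * (1 + ϖ ^ s * γ) ^ p,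
    ?_, ?_, ?_⟩
  · exact V.add_mem (V.add_mem (V.pow_mem hγ p) (V.mul_mem (V.pow_mem hϖ _) hv))
      (V.mul_mem (V.mul_mem (V.pow_mem hϖ _) hvu) hXV)
  · have h3 : ϖ ^ (p * e + 1) = ϖ ^ (p * s) * ϖ ^ (p * (e - s) + 1) := by
      rw [← pow_add, hexp]
    rw [hu, h3]
    linear_combination (1 : F) * hX
  · intro hse
    obtain ⟨k, hk⟩ : ∃ k, (e - s) * (p - 1) = k + 1 := by
      have h1 : 0 < e - s := by omega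
      have h2 : 0 < p - 1 := by have := hp.two_le; omega
      exact ⟨(e - s) * (p - 1) - 1, by have := Nat.mul_pos h1 h2; omega⟩
    refine ⟨ϖ ^ k * v + ϖ ^ (p * (e - s)) * vu * (1 + ϖ ^ s * γ) ^ p, ?_, ?_⟩
    · exact V.add_mem (V.mul_mem (V.pow_mem hϖ _) hv)
        (V.mul_mem (V.mul_mem (V.pow_mem hϖ _) hvu) hXV)
    · rw [hk, pow_succ, pow_succ]
      ring

/-- **The climb.** -/
theorem climb {e : ℕ} (hp : p.Prime) (he : 0 < e) (h : ClimbCtx O V ϖ p)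
    {κ : F} (hκ : κ ∈ O) (hpe : (p : F) = κ * ϖ ^ (e * (p - 1)))
    {u d₀ : F} (hd₀ : d₀ ∈ V) (hε : u * d₀ ^ p ∈ O) (hε' : (u * d₀ ^ p)⁻¹ ∈ O)
    (hε0 : u * d₀ ^ p ≠ 0)
    (hu : ∃ v ∈ V, u = 1 + ϖ ^ (p * e + 1) * v) :
    ∃ θ ∈ O, θ ≠ 0 ∧ θ⁻¹ ∈ O ∧ (∃ γ ∈ V, d₀ * θ⁻¹ = 1 + ϖ ^ e * γ) ∧
      ∃ o ∈ O, u * (d₀ * θ⁻¹) ^ p = 1 + ϖ ^ (p * e) * o := by
  obtain ⟨vu, hvu, hu⟩ := hu
  have hϖV : ϖ ∈ V := h.le h.mem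
  have hκV : κ ∈ V := h.le hκ
  have hp0 : p ≠ 0 := hp.ne_zero
  -- the induction
  have key : ∀ s : ℕ, 1 ≤ s → s ≤ e →
      ∃ θ ∈ O, θ ≠ 0 ∧ θ⁻¹ ∈ O ∧ ∃ γ ∈ V, d₀ * θ⁻¹ = 1 + ϖ ^ s * γ := by
    intro s hs
    induction s, hs using Nat.le_induction with
    | base =>
      intro _
      -- `d₀^p ≡ ε mod ϖ V`
      have h1 : ∃ v ∈ V, d₀ ^ p - u * d₀ ^ p = ϖ * v := by
        refine ⟨-(ϖ ^ (p * e) * vu * d₀ ^ p), V.neg_mem (V.mul_mem (V.mul_mem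
          (V.pow_mem hϖV _) hvu) (V.pow_mem hd₀ p)), ?_⟩
        rw [hu, pow_succ]
        ring
      obtain ⟨γ₀, hγ₀, v₁, hv₁, hγv⟩ := h.root d₀ hd₀ _ hε h1
      -- `γ₀^p ≡ ε mod ϖ O`
      obtain ⟨c, hc⟩ := sub_dvd_pow_sub_pow (⟨d₀, hd₀⟩ : V) ⟨γ₀, h.le hγ₀⟩ p
      have hc' : d₀ ^ p - γ₀ ^ p = (d₀ - γ₀) * (c : F) := by
        have := congrArg (Subtype.val) hc
        simpa using this
      obtain ⟨v, hv, hv'⟩ := h1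
      have h2 : ϖ * (v - v₁ * c) = γ₀ ^ p - u * d₀ ^ p := by
        rw [hγv] at hc'
        linear_combination hc' - hv'
      have h3 : v - v₁ * c ∈ O := by
        refine h.cap _ (V.sub_mem hv (V.mul_mem hv₁ c.2)) ?_
        rw [h2]
        exact O.sub_mem (O.pow_mem hγ₀ p) hε
      obtain ⟨hne, hinv⟩ := h.unit _ (O.mul_mem hε' h3)
      have hcancel : u * d₀ ^ p * (u * d₀ ^ p)⁻¹ = 1 := mul_inv_cancel₀ hε0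
      have h4 : γ₀ ^ p = u * d₀ ^ p * (1 + ϖ * ((u * d₀ ^ p)⁻¹ * (v - v₁ * c))) := by
        linear_combination (-1 : F) * h2 - (ϖ * (v - v₁ * c)) * hcancel
      have hγp0 : γ₀ ^ p ≠ 0 := by
        rw [h4]
        exact mul_ne_zero hε0 hne
      have hγ0 : γ₀ ≠ 0 := fun h0 => hγp0 (by rw [h0, zero_pow hp0])
      have hγinv : γ₀⁻¹ ∈ O := by
        have h5 : γ₀⁻¹ = γ₀ ^ (p - 1) * ((u * d₀ ^ p)⁻¹ *
            (1 + ϖ * ((u * d₀ ^ p)⁻¹ * (v - v₁ * c)))⁻¹) := by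
          rw [← mul_inv, ← h4]
          have h6 : γ₀ ^ p = γ₀ ^ (p - 1) * γ₀ := by
            rw [← pow_succ, Nat.sub_add_cancel hp.one_le]
          rw [h6, mul_inv, ← mul_assoc, mul_inv_cancel₀ (pow_ne_zero _ hγ0), one_mul]
        rw [h5]
        exact O.mul_mem (O.pow_mem hγ₀ _) (O.mul_mem hε' hinv)
      refine ⟨γ₀, hγ₀, hγ0, hγinv, v₁ * γ₀⁻¹, V.mul_mem hv₁ (h.le hγinv), ?_⟩
      field_simp
      linear_combination hγv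
    | succ s hs ih =>
      intro hse
      obtain ⟨θ, hθ, hθ0, hθinv, γ, hγ, hdθ⟩ := ih (by omega)
      obtain ⟨T, hT, hprod, hTW⟩ := deep_mul hp hϖV hκV hpe hvu hu (by omega : s ≤ e) hγ
      obtain ⟨W, hW, hTW⟩ := hTW (by omega)
      -- `ε_s = u (d₀ θ⁻¹)^p ∈ O`
      have hεs : u * (d₀ * θ⁻¹) ^ p ∈ O := by
        have : u * (d₀ * θ⁻¹) ^ p = u * d₀ ^ p * θ⁻¹ ^ p := by ring
        rw [this]
        exact O.mul_mem hε (O.pow_mem hθinv p)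
      have hTO : T ∈ O := by
        refine h.cap_pow (p * s) T hT ?_
        have : ϖ ^ (p * s) * T = u * (d₀ * θ⁻¹) ^ p - 1 := by
          rw [hdθ, hprod]
          ring
        rw [this]
        exact O.sub_mem hεs O.one_mem
      obtain ⟨γ₀, hγ₀, v', hv', hγv⟩ := h.root γ hγ T hTO
        ⟨-W, V.neg_mem hW, by rw [hTW]; ring⟩
      obtain ⟨hne, hinv⟩ := h.unit_pow (by omega : 0 < s) hγ₀
      refine ⟨θ * (1 + ϖ ^ s * γ₀), O.mul_mem hθ (O.add_mem O.one_mem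
        (O.mul_mem (O.pow_mem h.mem s) hγ₀)), mul_ne_zero hθ0 hne, ?_, ?_⟩
      · rw [mul_inv]
        exact O.mul_mem hθinv hinv
      · refine ⟨v' * (1 + ϖ ^ s * γ₀)⁻¹, V.mul_mem hv' (h.le hinv), ?_⟩
        rw [mul_inv, ← mul_assoc, hdθ]
        field_simp
        rw [pow_succ]
        linear_combination (ϖ ^ s) * hγv
  obtain ⟨θ, hθ, hθ0, hθinv, γ, hγ, hdθ⟩ := key e he le_rfl
  refine ⟨θ, hθ, hθ0, hθinv, ⟨γ, hγ, hdθ⟩, ?_⟩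
  obtain ⟨T, hT, hprod, -⟩ := deep_mul hp hϖV hκV hpe hvu hu (le_refl e) hγ
  have hεs : u * (d₀ * θ⁻¹) ^ p ∈ O := by
    have : u * (d₀ * θ⁻¹) ^ p = u * d₀ ^ p * θ⁻¹ ^ p := by ring
    rw [this]
    exact O.mul_mem hε (O.pow_mem hθinv p)
  have hTO : T ∈ O := by
    refine h.cap_pow (p * e) T hT ?_
    have : ϖ ^ (p * e) * T = u * (d₀ * θ⁻¹) ^ p - 1 := by
      rw [hdθ, hprod]
      ring
    rw [this]
    exact O.sub_mem hεs O.one_mem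
  exact ⟨T, hTO, by rw [hdθ, hprod]⟩

/-- `(1 + ϖ^e b)^p ∈ 1 + ϖ^(p e) O`. -/
theorem one_add_pow_deep {e : ℕ} (hp : p.Prime) (S : Subring F) (hϖ : ϖ ∈ S) {κ : F}
    (hκ : κ ∈ S) (hpe : (p : F) = κ * ϖ ^ (e * (p - 1))) {b : F} (hb : b ∈ S) :
    ∃ o ∈ S, (1 + ϖ ^ e * b) ^ p = 1 + ϖ ^ (p * e) * o := by
  obtain ⟨v, hv, hX⟩ := one_add_pow_mem hp S hϖ hκ hpe (le_refl e) hb
  exact ⟨_, S.add_mem (S.pow_mem hb p) (S.mul_mem (S.pow_mem hϖ _) hv), hX⟩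

end Climb

end Fermat.Agent.Ribet.H754
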