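import Fermat.Agent.Ribet.H754.Climb
import Fermat.Agent.A2.Alg.H754.SmoothAbs

/-!
# RIBET / W-ALGP leaf WPS (helper754): wild purity at a smooth point, abstract form

`B` a Noetherian integrally closed domain with fraction field `F`, `(ϖ) = P ⊓ P'` (two
incomparable primes), `B / P` Dedekind, `n` a maximal ideal with `P ≤ n`, `¬ P' ≤ n`;
`p` a prime number with `p = κ ϖ^(e (p - 1))`, `e ≥ 1` (`ϖ^e` = depth of `ζ_p - 1`).

`wps_abs`: if `p ∣ div u` at every height-one prime and `u ∈ 1 + ϖ^(p e + 1) B_P`, there is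
`d ∈ Fˣ` with `u d^p ∈ 1 + ϖ^(p e) B_n`, `d ∈ 1 + ϖ^e B_P` and `d ∈ 1 + ϖ^e B_{P'}`.

Steps: (i) A2 purity `pure_smooth_abs` (valid for every exponent): `ε = u d₀^p ∈ B_nˣ`;
(ii) the climb (`Climb.lean`) in `O = B_n ≤ V = B_P`: `ϖ V ∩ O = ϖ O`, `p`-th roots modulo `ϖ`
descend because `B / P` is normal; (iii) `B_n + ϖ^K B_{P'} = F` (`exists_approx`), correction of
`d` on the other component by `δ ∈ 1 + ϖ^e B_n`.
-/

set_option autoImplicit false
set_option linter.style.haveILetI false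
set_option linter.unusedSectionVars false
set_option linter.unusedVariables false

namespace Fermat.Agent.Ribet.H754

open Fermat.Agent.A2.Alg.H754 (LocU exists_mul_eq_of_mem height_eq_one_of_inf exists_zpow_locU
  pure_smooth_abs)
open Fermat.Agent.S18.H754 (DivisibleDivisor)

section LocRing

variable {B F : Type*} [CommRing B] [Field F] [Algebra B F]

/-- The localisation `B_𝔮 ⊆ F` as a subring of `F`. -/
def locRing (F : Type*) [Field F] [Algebra B F] (𝔮 : Ideal B) [h𝔮 : 𝔮.IsPrime] : Subring F where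
  carrier := {f | ∃ a b : B, b ∉ 𝔮 ∧ f * algebraMap B F b = algebraMap B F a}
  mul_mem' := by
    rintro f g ⟨a, b, hb, hab⟩ ⟨a', b', hb', hab'⟩
    refine ⟨a * a', b * b', fun h => (h𝔮.mem_or_mem h).elim hb hb', ?_⟩
    rw [map_mul, map_mul, ← hab, ← hab']
    ring
  one_mem' := ⟨1, 1, fun h => h𝔮.ne_top ((Ideal.eq_top_iff_one _).2 h), by rw [one_mul]⟩
  add_mem' := by
    rintro f g ⟨a, b, hb, hab⟩ ⟨a', b', hb', hab'⟩
    refine ⟨a * b' + a' * b, b * b', fun h => (h𝔮.mem_or_mem h).elim hb hb', ?_⟩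
    rw [map_add, map_mul, map_mul, map_mul, ← hab, ← hab']
    ring
  zero_mem' := ⟨0, 1, fun h => h𝔮.ne_top ((Ideal.eq_top_iff_one _).2 h), by
    rw [zero_mul, map_zero]⟩
  neg_mem' := by
    rintro f ⟨a, b, hb, hab⟩
    exact ⟨-a, b, hb, by rw [neg_mul, hab, map_neg]⟩

theorem mem_locRing {𝔮 : Ideal B} [h𝔮 : 𝔮.IsPrime] {f : F} :
    f ∈ locRing F 𝔮 ↔ ∃ a b : B, b ∉ 𝔮 ∧ f * algebraMap B F b = algebraMap B F a := Iff.rfl

theorem algebraMap_mem_locRing (𝔮 : Ideal B) [h𝔮 : 𝔮.IsPrime] (b : B) :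
    algebraMap B F b ∈ locRing F 𝔮 :=
  ⟨b, 1, fun h => h𝔮.ne_top ((Ideal.eq_top_iff_one _).2 h), by rw [map_one, mul_one]⟩

theorem locRing_mono {𝔮 𝔮' : Ideal B} [h𝔮 : 𝔮.IsPrime] [h𝔮' : 𝔮'.IsPrime] (h : 𝔮 ≤ 𝔮') :
    locRing F 𝔮' ≤ locRing F 𝔮 := by
  rintro f ⟨a, b, hb, hab⟩
  exact ⟨a, b, fun h' => hb (h h'), hab⟩

theorem LocU.mem_locRing {𝔮 : Ideal B} [h𝔮 : 𝔮.IsPrime] {f : F} (hf : LocU 𝔮 f) :
    f ∈ locRing F 𝔮 := by
  obtain ⟨a, b, -, hb, hab⟩ := hf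
  exact ⟨a, b, hb, hab⟩

variable [FaithfulSMul B F]

theorem LocU.inv_mem_locRing {𝔮 : Ideal B} [h𝔮 : 𝔮.IsPrime] {f : F} (hf : LocU 𝔮 f) :
    f⁻¹ ∈ locRing F 𝔮 :=
  LocU.mem_locRing hf.inv

theorem div_mem_locRing {𝔮 : Ideal B} [h𝔮 : 𝔮.IsPrime] (a : B) {b : B} (hb : b ∉ 𝔮) :
    algebraMap B F a * (algebraMap B F b)⁻¹ ∈ locRing F 𝔮 :=
  ⟨a, b, hb, by rw [mul_assoc, inv_mul_cancel₀ (LocU.algebraMap_ne_zero hb), mul_one]⟩

theorem eq_div_of_mul_eq754 {𝔮 : Ideal B} {f : F} {a b : B} (hb : b ∉ 𝔮)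
    (h : f * algebraMap B F b = algebraMap B F a) :
    f = algebraMap B F a * (algebraMap B F b)⁻¹ := by
  rw [← h, mul_assoc, mul_inv_cancel₀ (LocU.algebraMap_ne_zero hb), mul_one]

end LocRing

section Ctx

variable {B F : Type*} [CommRing B] [IsDomain B] [Field F] [Algebra B F] [IsFractionRing B F]

/-- The hypotheses of the climb hold for `B_n ≤ B_P`. -/
theorem climbCtx_locRing (ϖ : B) (hϖ : ϖ ≠ 0) (P P' : Ideal B) [hP : P.IsPrime]
    [hP' : P'.IsPrime] (hinf : P ⊓ P' = Ideal.span {ϖ}) (h21 : ¬ P' ≤ P)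
    (hnorm : IsIntegrallyClosed (B ⧸ P))
    (n : Ideal B) [hn : n.IsPrime] (hPn : P ≤ n) (hP'n : ¬ P' ≤ n) (p : ℕ) (hp : p ≠ 0) :
    ClimbCtx (locRing F n) (locRing F P) (algebraMap B F ϖ) p := by
  have hinj : Function.Injective (algebraMap B F) := IsFractionRing.injective B F
  have hϖF : algebraMap B F ϖ ≠ 0 := fun h0 => hϖ (hinj (by rw [h0, map_zero]))
  have hϖP : ϖ ∈ P := by
    have : ϖ ∈ P ⊓ P' := hinf ▸ Ideal.mem_span_singleton_self ϖ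
    exact this.1
  obtain ⟨g₀, hg₀P', hg₀n⟩ := SetLike.not_le_iff_exists.1 hP'n
  obtain ⟨h₀, hh₀P', hh₀P⟩ := SetLike.not_le_iff_exists.1 h21
  refine ⟨locRing_mono hPn, algebraMap_mem_locRing n ϖ, hϖF, ?_, ?_, ?_⟩
  · -- cap
    rintro v ⟨a', b', hb', hv⟩ ⟨a, b, hb, hϖv⟩
    have h1 : ϖ * a' * b = a * b' := by
      apply hinj
      simp only [map_mul]
      rw [← hv, ← hϖv]
      ring
    have haP : a ∈ P := by
      have : a * b' ∈ P := by
        rw [← h1]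
        exact P.mul_mem_right _ (P.mul_mem_right _ hϖP)
      exact (hP.mem_or_mem this).resolve_right hb'
    obtain ⟨c, hc⟩ := exists_mul_eq_of_mem ϖ P P' hinf hg₀P' haP
    refine ⟨c, g₀ * b, fun h => (hn.mem_or_mem h).elim hg₀n hb, ?_⟩
    apply mul_left_cancel₀ hϖF
    have hcF : algebraMap B F g₀ * algebraMap B F a = algebraMap B F ϖ * algebraMap B F c := by
      rw [← map_mul, ← map_mul, hc]
    rw [map_mul]
    linear_combination (algebraMap B F g₀) * hϖv + hcF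
  · -- root
    rintro γ ⟨a, s, hs, hγ⟩ β ⟨b, t, ht, hβ⟩ ⟨v, ⟨a', s', hs', hv⟩, hrel⟩
    have htP : t ∉ P := fun h => ht (hPn h)
    have h1 : a ^ p * t * s' - b * s ^ p * s' = ϖ * (a' * s ^ p * t) := by
      apply hinj
      simp only [map_mul, map_sub, map_pow]
      rw [← hγ, ← hβ, ← hv]
      linear_combination (algebraMap B F s ^ p * algebraMap B F t * algebraMap B F s') * hrel
    have h2 : Ideal.Quotient.mk P a ^ p * Ideal.Quotient.mk P t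
        = Ideal.Quotient.mk P b * Ideal.Quotient.mk P s ^ p := by
      have hs'0 : Ideal.Quotient.mk P s' ≠ 0 := by
        rwa [Ne, Ideal.Quotient.eq_zero_iff_mem]
      apply mul_right_cancel₀ hs'0
      have h3 := congrArg (Ideal.Quotient.mk P) h1
      simp only [map_mul, map_sub, map_pow] at h3
      rw [Ideal.Quotient.eq_zero_iff_mem.2 hϖP, zero_mul, sub_eq_zero] at h3
      exact h3
    have h4 : Ideal.Quotient.mk P s ^ p ∣ (Ideal.Quotient.mk P a * Ideal.Quotient.mk P t) ^ p := by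
      refine ⟨Ideal.Quotient.mk P b * Ideal.Quotient.mk P t ^ (p - 1), ?_⟩
      have h5 : Ideal.Quotient.mk P t ^ p
          = Ideal.Quotient.mk P t * Ideal.Quotient.mk P t ^ (p - 1) := by
        rw [← pow_succ', Nat.sub_add_cancel (Nat.one_le_iff_ne_zero.2 hp)]
      rw [mul_pow, h5, ← mul_assoc, h2]
      ring
    obtain ⟨cbar, hcbar⟩ := (IsIntegrallyClosed.pow_dvd_pow_iff hp).1 h4
    obtain ⟨c, rfl⟩ := Ideal.Quotient.mk_surjective cbar
    have hz : a * t - s * c ∈ P := by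
      rw [← Ideal.Quotient.eq, map_mul, map_mul]
      exact hcbar
    obtain ⟨c', hc'⟩ := exists_mul_eq_of_mem ϖ P P' hinf hh₀P' hz
    have hc'F : algebraMap B F h₀ * (algebraMap B F a * algebraMap B F t
        - algebraMap B F s * algebraMap B F c) = algebraMap B F ϖ * algebraMap B F c' := by
      rw [← map_mul, ← map_mul, ← map_mul, ← map_sub, ← map_mul, hc']
    have hst : h₀ * s * t ∉ P := fun h =>
      (hP.mem_or_mem h).elim (fun h' => (hP.mem_or_mem h').elim hh₀P hs) htP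
    refine ⟨_, div_mem_locRing c ht, _, div_mem_locRing c' hst, ?_⟩
    have hs0 : algebraMap B F s ≠ 0 := LocU.algebraMap_ne_zero hs
    have ht0 : algebraMap B F t ≠ 0 := LocU.algebraMap_ne_zero ht
    have hh0 : algebraMap B F h₀ ≠ 0 := LocU.algebraMap_ne_zero hh₀P
    rw [eq_div_of_mul_eq754 hs hγ, map_mul, map_mul]
    field_simp
    linear_combination hc'F
  · -- unit
    rintro o ⟨a, b, hb, ho⟩
    have hbn : b + ϖ * a ∉ n := by
      intro h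
      apply hb
      have h2 : b = (b + ϖ * a) - ϖ * a := by ring
      rw [h2]
      exact n.sub_mem h (n.mul_mem_right _ (hPn hϖP))
    have key : (1 + algebraMap B F ϖ * o) * algebraMap B F b = algebraMap B F (b + ϖ * a) := by
      rw [map_add, map_mul, ← ho]
      ring
    have hne : 1 + algebraMap B F ϖ * o ≠ 0 := by
      intro h0
      rw [h0, zero_mul] at key
      exact LocU.algebraMap_ne_zero hbn key.symm
    refine ⟨hne, b, b + ϖ * a, hbn, ?_⟩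
    rw [← key, ← mul_assoc, inv_mul_cancel₀ hne, one_mul]

end Ctx

section Approx

variable {B F : Type*} [CommRing B] [IsDomain B] [Field F] [Algebra B F] [IsFractionRing B F]
  [IsNoetherianRing B] [IsIntegrallyClosed B]

/-- Every element of `F` becomes integral at `P'` after multiplication by a power of `ϖ`. -/
theorem exists_pow_mul_mem (ϖ : B) (hϖ : ϖ ≠ 0) (P P' : Ideal B) [hP : P.IsPrime]
    [hP' : P'.IsPrime] (hinf : P ⊓ P' = Ideal.span {ϖ}) (h12 : ¬ P ≤ P') (f : F) :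
    ∃ K : ℕ, algebraMap B F ϖ ^ K * f ∈ locRing F P' := by
  by_cases hf : f = 0
  · exact ⟨0, by rw [hf, mul_zero]; exact (locRing F P').zero_mem⟩
  have hinj : Function.Injective (algebraMap B F) := IsFractionRing.injective B F
  have hϖF : algebraMap B F ϖ ≠ 0 := fun h0 => hϖ (hinj (by rw [h0, map_zero]))
  have hinf' : P' ⊓ P = Ideal.span {ϖ} := by rw [inf_comm]; exact hinf
  have hϖP' : ϖ ∈ P' := by
    have : ϖ ∈ P ⊓ P' := hinf ▸ Ideal.mem_span_singleton_self ϖ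
    exact this.2
  obtain ⟨h₀, hh₀P, hh₀P'⟩ := SetLike.not_le_iff_exists.1 h12
  have hgen : ∀ a ∈ P', ∃ g : B, g ∉ P' ∧ ∃ c : B, g * a = ϖ * c := fun a ha =>
    ⟨h₀, hh₀P', exists_mul_eq_of_mem ϖ P' P hinf' hh₀P ha⟩
  obtain ⟨j, υ, hυ, hfj⟩ := exists_zpow_locU P' (height_eq_one_of_inf ϖ hϖ P' P hinf' h12) ϖ hϖ
    hϖP' hgen hf
  refine ⟨j.natAbs, ?_⟩
  obtain ⟨m, hm⟩ : ∃ m : ℕ, (m : ℤ) = (j.natAbs : ℤ) + j := by
    refine ⟨((j.natAbs : ℤ) + j).toNat, Int.toNat_of_nonneg ?_⟩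
    omega
  have h1 : algebraMap B F ϖ ^ j.natAbs * f = υ * algebraMap B F ϖ ^ m := by
    rw [hfj, ← zpow_natCast (algebraMap B F ϖ) m, hm, zpow_add₀ hϖF, zpow_natCast]
    ring
  rw [h1]
  exact (locRing F P').mul_mem (LocU.mem_locRing hυ)
    ((locRing F P').pow_mem (algebraMap_mem_locRing P' ϖ) m)

/-- **Approximation**: `B_n + ϖ^K B_{P'} = F` when `P' ⊄ n`. -/
theorem exists_approx (ϖ : B) (hϖ : ϖ ≠ 0) (P P' : Ideal B) [hP : P.IsPrime]
    [hP' : P'.IsPrime] (hinf : P ⊓ P' = Ideal.span {ϖ}) (h12 : ¬ P ≤ P')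
    (n : Ideal B) [hn : n.IsPrime] (hϖn : ϖ ∈ n) (hP'n : ¬ P' ≤ n) (f : F) (K : ℕ) :
    ∃ b ∈ locRing F n, ∃ v ∈ locRing F P', f - b = algebraMap B F ϖ ^ K * v := by
  have hinj : Function.Injective (algebraMap B F) := IsFractionRing.injective B F
  have hϖF : algebraMap B F ϖ ≠ 0 := fun h0 => hϖ (hinj (by rw [h0, map_zero]))
  have hinf' : P' ⊓ P = Ideal.span {ϖ} := by rw [inf_comm]; exact hinf
  have hϖP' : ϖ ∈ P' := by
    have : ϖ ∈ P ⊓ P' := hinf ▸ Ideal.mem_span_singleton_self ϖ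
    exact this.2
  obtain ⟨g₀, hg₀P', hg₀n⟩ := SetLike.not_le_iff_exists.1 hP'n
  obtain ⟨h₀, hh₀P, hh₀P'⟩ := SetLike.not_le_iff_exists.1 h12
  obtain ⟨c₀, hc₀⟩ := exists_mul_eq_of_mem ϖ P' P hinf' hh₀P hg₀P'
  -- `hc₀ : h₀ * g₀ = ϖ * c₀`
  obtain ⟨K₁, hK₁⟩ := exists_pow_mul_mem ϖ hϖ P P' hinf h12 f
  -- the uniformiser `π' = g₀² + ϖ` at `P'`, a unit at `n`
  have hπn : g₀ ^ 2 + ϖ ∉ n := by
    intro h
    have h2 : g₀ ^ 2 ∈ n := by
      have h3 : g₀ ^ 2 = (g₀ ^ 2 + ϖ) - ϖ := by ring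
      rw [h3]
      exact n.sub_mem h hϖn
    exact hg₀n (hn.mem_of_pow_mem 2 h2)
  have hm₀ : ϖ * c₀ ^ 2 + h₀ ^ 2 ∉ P' := by
    intro h
    have h2 : h₀ ^ 2 ∈ P' := by
      have h3 : h₀ ^ 2 = (ϖ * c₀ ^ 2 + h₀ ^ 2) - ϖ * c₀ ^ 2 := by ring
      rw [h3]
      exact P'.sub_mem h (P'.mul_mem_right _ hϖP')
    exact hh₀P' (hP'.mem_of_pow_mem 2 h2)
  have hπm : h₀ ^ 2 * (g₀ ^ 2 + ϖ) = ϖ * (ϖ * c₀ ^ 2 + h₀ ^ 2) := by
    linear_combination (h₀ * g₀ + ϖ * c₀) * hc₀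
  have hπmF : algebraMap B F h₀ ^ 2 * algebraMap B F (g₀ ^ 2 + ϖ)
      = algebraMap B F ϖ * algebraMap B F (ϖ * c₀ ^ 2 + h₀ ^ 2) := by
    rw [← map_pow, ← map_mul, ← map_mul, hπm]
  have hc₀F : algebraMap B F h₀ * algebraMap B F g₀ = algebraMap B F ϖ * algebraMap B F c₀ := by
    rw [← map_mul, ← map_mul, hc₀]
  have hπ0 : algebraMap B F (g₀ ^ 2 + ϖ) ≠ 0 := LocU.algebraMap_ne_zero hπn
  have hh0 : algebraMap B F h₀ ≠ 0 := LocU.algebraMap_ne_zero hh₀P'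
  have hm0 : algebraMap B F (ϖ * c₀ ^ 2 + h₀ ^ 2) ≠ 0 := LocU.algebraMap_ne_zero hm₀
  have hh2 : h₀ ^ 2 ∉ P' := fun h => hh₀P' (hP'.mem_of_pow_mem 2 h)
  -- `μ = ϖ / π'` and `μ⁻¹ = π' / ϖ` are in `B_{P'}`
  have hμ : algebraMap B F ϖ * (algebraMap B F (g₀ ^ 2 + ϖ))⁻¹ ∈ locRing F P' := by
    have : algebraMap B F ϖ * (algebraMap B F (g₀ ^ 2 + ϖ))⁻¹
        = algebraMap B F (h₀ ^ 2) * (algebraMap B F (ϖ * c₀ ^ 2 + h₀ ^ 2))⁻¹ := by
      rw [map_pow]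
      field_simp
      linear_combination (-1 : F) * hπmF
    rw [this]
    exact div_mem_locRing _ hm₀
  have hμ' : algebraMap B F (g₀ ^ 2 + ϖ) * (algebraMap B F ϖ)⁻¹ ∈ locRing F P' := by
    have : algebraMap B F (g₀ ^ 2 + ϖ) * (algebraMap B F ϖ)⁻¹
        = algebraMap B F (ϖ * c₀ ^ 2 + h₀ ^ 2) * (algebraMap B F (h₀ ^ 2))⁻¹ := by
      rw [map_pow]
      field_simp
      linear_combination hπmF
    rw [this]
    exact div_mem_locRing _ hh2
  -- `f' = f π'^K₁ ∈ B_{P'}`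
  have hf' : f * algebraMap B F (g₀ ^ 2 + ϖ) ^ K₁ ∈ locRing F P' := by
    have : f * algebraMap B F (g₀ ^ 2 + ϖ) ^ K₁ = algebraMap B F ϖ ^ K₁ * f *
        (algebraMap B F (g₀ ^ 2 + ϖ) * (algebraMap B F ϖ)⁻¹) ^ K₁ := by
      rw [mul_pow, inv_pow]
      field_simp
    rw [this]
    exact (locRing F P').mul_mem hK₁ ((locRing F P').pow_mem hμ' K₁)
  obtain ⟨a, s, hs, hfs⟩ := hf'
  -- the denominator made prime to `n`
  obtain ⟨s', hs'n, hs'P', r, hr⟩ : ∃ s' : B, s' ∉ n ∧ s' ∉ P' ∧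
      ∃ r : B, s' - s = r * g₀ ^ (K + K₁ + 1) := by
    by_cases hsn : s ∈ n
    · refine ⟨s + g₀ ^ (K + K₁ + 1), ?_, ?_, 1, by ring⟩
      · intro h
        have h2 : g₀ ^ (K + K₁ + 1) ∈ n := by
          have h3 : g₀ ^ (K + K₁ + 1) = (s + g₀ ^ (K + K₁ + 1)) - s := by ring
          rw [h3]
          exact n.sub_mem h hsn
        exact hg₀n (hn.mem_of_pow_mem _ h2)
      · intro h
        have h2 : s ∈ P' := by
          have h3 : s = (s + g₀ ^ (K + K₁ + 1)) - g₀ ^ (K + K₁ + 1) := by ring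
          rw [h3]
          exact P'.sub_mem h (P'.pow_mem_of_mem hg₀P' _ (Nat.succ_pos _))
        exact hs h2
    · exact ⟨s, hsn, hs, 0, by ring⟩
  have hs0 : algebraMap B F s ≠ 0 := LocU.algebraMap_ne_zero hs
  have hs'0 : algebraMap B F s' ≠ 0 := LocU.algebraMap_ne_zero hs'n
  have hπinv : (algebraMap B F (g₀ ^ 2 + ϖ))⁻¹ ∈ locRing F n := by
    have := div_mem_locRing (F := F) (1 : B) hπn
    rwa [map_one, one_mul] at this
  have hden : s * s' * h₀ ^ (K + K₁ + 1) ∉ P' := fun h =>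
    (hP'.mem_or_mem h).elim (fun h' => (hP'.mem_or_mem h').elim hs hs'P')
      (fun h' => hh₀P' (hP'.mem_of_pow_mem _ h'))
  refine ⟨algebraMap B F a * (algebraMap B F s')⁻¹ * (algebraMap B F (g₀ ^ 2 + ϖ))⁻¹ ^ K₁,
    (locRing F n).mul_mem (div_mem_locRing a hs'n) ((locRing F n).pow_mem hπinv K₁),
    algebraMap B F ϖ * (algebraMap B F (a * r * c₀ ^ (K + K₁ + 1)) *
      (algebraMap B F (s * s' * h₀ ^ (K + K₁ + 1)))⁻¹) *
      (algebraMap B F ϖ * (algebraMap B F (g₀ ^ 2 + ϖ))⁻¹) ^ K₁,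
    (locRing F P').mul_mem ((locRing F P').mul_mem (algebraMap_mem_locRing P' ϖ)
      (div_mem_locRing _ hden)) ((locRing F P').pow_mem hμ K₁), ?_⟩
  have hfeq : f = algebraMap B F a * (algebraMap B F s)⁻¹ *
      (algebraMap B F (g₀ ^ 2 + ϖ))⁻¹ ^ K₁ := by
    rw [inv_pow]
    field_simp
    linear_combination hfs
  have hG : algebraMap B F g₀ ^ (K + K₁ + 1) = algebraMap B F ϖ ^ (K + K₁ + 1) *
      (algebraMap B F c₀ ^ (K + K₁ + 1) * (algebraMap B F h₀ ^ (K + K₁ + 1))⁻¹) := by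
    have h1 : algebraMap B F h₀ ^ (K + K₁ + 1) * algebraMap B F g₀ ^ (K + K₁ + 1)
        = algebraMap B F ϖ ^ (K + K₁ + 1) * algebraMap B F c₀ ^ (K + K₁ + 1) := by
      rw [← mul_pow, ← mul_pow, hc₀F]
    field_simp
    linear_combination h1
  have hS : algebraMap B F s' - algebraMap B F s
      = algebraMap B F r * algebraMap B F g₀ ^ (K + K₁ + 1) := by
    rw [← map_sub, hr, map_mul, map_pow]
  have h1 : (algebraMap B F s)⁻¹ - (algebraMap B F s')⁻¹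
      = algebraMap B F r * (algebraMap B F ϖ ^ (K + K₁ + 1) *
        (algebraMap B F c₀ ^ (K + K₁ + 1) * (algebraMap B F h₀ ^ (K + K₁ + 1))⁻¹)) *
        (algebraMap B F s)⁻¹ * (algebraMap B F s')⁻¹ := by
    rw [← hG, ← hS]
    field_simp
  rw [hfeq]
  simp only [map_mul, map_pow]
  linear_combination (algebraMap B F a * (algebraMap B F (g₀ ^ 2 + ϖ))⁻¹ ^ K₁) * h1

end Approx

section Main

variable {B F : Type*} [CommRing B] [IsDomain B] [Field F] [Algebra B F] [IsFractionRing B F]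
  [IsNoetherianRing B] [IsIntegrallyClosed B]

/-- **Wild purity at a smooth point, abstract form.** -/
theorem wps_abs (ϖ : B) (hϖ : ϖ ≠ 0) (P P' : Ideal B) [hP : P.IsPrime] [hP' : P'.IsPrime]
    (hinf : P ⊓ P' = Ideal.span {ϖ}) (h12 : ¬ P ≤ P') (h21 : ¬ P' ≤ P)
    (hD : IsDedekindDomain (B ⧸ P))
    (n : Ideal B) (hn : n.IsMaximal) (hPn : P ≤ n) (hP'n : ¬ P' ≤ n)
    (p e : ℕ) (hp : p.Prime) (he : 0 < e) (κ : B) (hκ : (p : B) = κ * ϖ ^ (e * (p - 1)))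
    (u : F) (hu : u ≠ 0) (hdiv : DivisibleDivisor B p u)
    (hu1 : ∃ v ∈ locRing F P, u = 1 + algebraMap B F ϖ ^ (p * e + 1) * v) :
    ∃ d : F, d ≠ 0 ∧
      (∃ o ∈ locRing F n, u * d ^ p = 1 + algebraMap B F ϖ ^ (p * e) * o) ∧
      (∃ v ∈ locRing F P, d = 1 + algebraMap B F ϖ ^ e * v) ∧
      (∃ v ∈ locRing F P', d = 1 + algebraMap B F ϖ ^ e * v) := by
  haveI hnp : n.IsPrime := hn.isPrime
  haveI := hD
  have hinj : Function.Injective (algebraMap B F) := IsFractionRing.injective B F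
  have hϖF : algebraMap B F ϖ ≠ 0 := fun h0 => hϖ (hinj (by rw [h0, map_zero]))
  have hϖP : ϖ ∈ P := by
    have : ϖ ∈ P ⊓ P' := hinf ▸ Ideal.mem_span_singleton_self ϖ
    exact this.1
  -- (i) purity
  have hup : LocU P u := by
    obtain ⟨v, ⟨a, b, hb, hv⟩, huv⟩ := hu1
    refine ⟨b + ϖ ^ (p * e + 1) * a, b, ?_, hb, ?_⟩
    · intro h
      apply hb
      have h2 : b = (b + ϖ ^ (p * e + 1) * a) - ϖ ^ (p * e + 1) * a := by ring
      rw [h2]
      exact P.sub_mem h (P.mul_mem_right _ (P.pow_mem_of_mem hϖP _ (Nat.succ_pos _)))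
    · rw [huv, map_add, map_mul, map_pow, ← hv]
      ring
  obtain ⟨d₀, hd₀0, hεn, hd₀P, hd₀P'⟩ := pure_smooth_abs ϖ hϖ P P' hinf h12 h21 hD n hn hPn
    hP'n p hp.pos u hu hdiv hup
  -- (ii) the climb
  have hctx : ClimbCtx (locRing F n) (locRing F P) (algebraMap B F ϖ) p :=
    climbCtx_locRing ϖ hϖ P P' hinf h21 inferInstance n hPn hP'n p hp.ne_zero
  have hpF : ((p : ℕ) : F) = algebraMap B F κ * algebraMap B F ϖ ^ (e * (p - 1)) := by
    have := congrArg (algebraMap B F) hκ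
    rwa [map_natCast, map_mul, map_pow] at this
  obtain ⟨θ, hθ, hθ0, hθinv, ⟨γ, hγ, hdθ⟩, ⟨o, ho, hudθ⟩⟩ :=
    climb hp he hctx (algebraMap_mem_locRing n κ) hpF (LocU.mem_locRing hd₀P)
      (LocU.mem_locRing hεn) (LocU.inv_mem_locRing hεn) hεn.ne_zero hu1
  -- (iii) correction on the other component
  have hd0 : d₀ * θ⁻¹ ≠ 0 := mul_ne_zero hd₀0 (inv_ne_zero hθ0)
  obtain ⟨K, hK⟩ := exists_pow_mul_mem ϖ hϖ P P' hinf h12 (d₀ * θ⁻¹)
  obtain ⟨b, hb, v, hv, hfb⟩ := exists_approx ϖ hϖ P P' hinf h12 n (hPn hϖP) hP'n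
    (((d₀ * θ⁻¹)⁻¹ - 1) * (algebraMap B F ϖ ^ e)⁻¹) K
  obtain ⟨hδ0, hδinv⟩ := hctx.unit_pow he hb
  obtain ⟨o', ho', hδp⟩ := one_add_pow_deep hp (locRing F n) (algebraMap_mem_locRing n ϖ)
    (algebraMap_mem_locRing n κ) hpF hb
  have hWe : algebraMap B F ϖ ^ e ≠ 0 := pow_ne_zero _ hϖF
  refine ⟨d₀ * θ⁻¹ * (1 + algebraMap B F ϖ ^ e * b), mul_ne_zero hd0 hδ0,
    ⟨o + o' + algebraMap B F ϖ ^ (p * e) * o * o', ?_, ?_⟩,
    ⟨γ + b + algebraMap B F ϖ ^ e * γ * b, ?_, ?_⟩,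
    ⟨-(algebraMap B F ϖ ^ K * (d₀ * θ⁻¹)) * v, ?_, ?_⟩⟩
  · exact (locRing F n).add_mem ((locRing F n).add_mem ho ho')
      ((locRing F n).mul_mem ((locRing F n).mul_mem
        ((locRing F n).pow_mem (algebraMap_mem_locRing n ϖ) _) ho) ho')
  · rw [mul_pow, ← mul_assoc, hudθ, hδp]
    ring
  · exact (locRing F P).add_mem ((locRing F P).add_mem hγ (hctx.le hb))
      ((locRing F P).mul_mem ((locRing F P).mul_mem
        ((locRing F P).pow_mem (algebraMap_mem_locRing P ϖ) _) hγ) (hctx.le hb))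
  · rw [hdθ]
    ring
  · exact (locRing F P').mul_mem ((locRing F P').neg_mem hK) hv
  · have h1 : ((d₀ * θ⁻¹)⁻¹ - 1) * (algebraMap B F ϖ ^ e)⁻¹
        = b + algebraMap B F ϖ ^ K * v := by
      linear_combination hfb
    have h2 : (d₀ * θ⁻¹)⁻¹ - 1 = (b + algebraMap B F ϖ ^ K * v) * algebraMap B F ϖ ^ e := by
      rw [← h1, mul_assoc, inv_mul_cancel₀ hWe, mul_one]
    have h3 : 1 - d₀ * θ⁻¹
        = d₀ * θ⁻¹ * ((b + algebraMap B F ϖ ^ K * v) * algebraMap B F ϖ ^ e) := by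
      rw [← h2, mul_sub, mul_inv_cancel₀ hd0, mul_one]
    linear_combination (-1 : F) * h3

end Main

end Fermat.Agent.Ribet.H754
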