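import Fermat.Agent.Ribet.H754.WPSAbs
import Fermat.Agent.A2.Alg.H754.PuritySmooth
import Fermat.Agent.Ribet.H495.AlgPLoc

/-!
# RIBET / W-ALGP leaf WPS (helper754): `wpSmoothLeaf : H495.AlgP.WPSmoothLeaf`, VERBATIM

Wild purity at a closed point `n` of the special fibre lying on exactly ONE component of the
chart.  Chart instantiation of the abstract theorem `wps_abs` (`WPSAbs.lean`):

* `λ = ζ - 1 = η w^e` with `η ∈ Rˣ`, `e ≥ 1`, and `p = κ w^(e (p - 1))`
  (`sub_one_pow_dvd_natCast`, `sub_one_mem_maximalIdeal`);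
* the chart is a Noetherian integrally closed domain with Dedekind components
  (`A2.Alg.H754.chart_package`, `isDedekindDomain_component`);
* `p ∣ div u` at every height-one prime (`divisibleDivisor_of_divisibleDiv`; `IsSplit` from
  `DeepOne` with constant `1`).

The sheet labels are `j = 0` on both components.
-/

set_option autoImplicit false
set_option linter.style.haveILetI false
set_option linter.unusedSectionVars false
set_option linter.unusedVariables false

namespace Fermat.Agent.Ribet.H754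

open Fermat.Agent.A2 Fermat.Agent.A2.Alg
open Fermat.Agent.Ribet.H495.AlgP
open Fermat.Agent.A2.Alg.H754 (chart_package isDedekindDomain_component
  divisibleDivisor_of_divisibleDiv algebraMap_chart_injective)
open Fermat.Agent.S18.H754 (DivisibleDivisor)

section Cyclo

variable {R : Type*} [CommRing R] [IsDomain R]

/-- `(ζ - 1)^(p - 1) ∣ p` for a primitive `p`-th root of unity `ζ`. -/
theorem sub_one_pow_dvd_natCast {p : ℕ} (hp : p.Prime) {ζ : R} (hζ : IsPrimitiveRoot ζ p) :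
    (ζ - 1) ^ (p - 1) ∣ (p : R) := by
  haveI := Fact.mk hp
  have h1 : (Polynomial.cyclotomic p R).eval 1 = (p : R) := Polynomial.eval_one_cyclotomic_prime
  rw [Polynomial.cyclotomic_eq_prod_X_sub_primitiveRoots hζ, Polynomial.eval_prod] at h1
  simp only [Polynomial.eval_sub, Polynomial.eval_X, Polynomial.eval_C] at h1
  rw [← h1]
  have hcard : (primitiveRoots p R).card = p - 1 := by
    rw [hζ.card_primitiveRoots, Nat.totient_prime hp]
  rw [← hcard, ← Finset.prod_const]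
  refine Finset.prod_dvd_prod_of_dvd _ _ ?_
  intro μ hμ
  have hμ' : IsPrimitiveRoot μ p := (mem_primitiveRoots hp.pos).1 hμ
  obtain ⟨i, -, rfl⟩ := hζ.eq_pow_of_pow_eq_one hμ'.pow_eq_one
  have h2 : ζ - 1 ∣ ζ ^ i - 1 := by
    have := sub_dvd_pow_sub_pow ζ 1 i
    rwa [one_pow] at this
  exact (dvd_sub_comm).1 h2

/-- `ζ - 1` lies in every prime ideal containing `p`. -/
theorem sub_one_mem_of_natCast_mem {p : ℕ} (hp : p.Prime) {ζ : R} (hζ : IsPrimitiveRoot ζ p)
    (I : Ideal R) [hI : I.IsPrime] (hpI : (p : R) ∈ I) : ζ - 1 ∈ I := by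
  obtain ⟨r, hr⟩ := exists_add_pow_prime_eq hp (ζ - 1) 1
  rw [sub_add_cancel, hζ.pow_eq_one, one_pow] at hr
  have h1 : (ζ - 1) ^ p = (p : R) * (-((ζ - 1) * r)) := by
    linear_combination (-1 : R) * hr
  refine hI.mem_of_pow_mem p ?_
  rw [h1]
  exact I.mul_mem_right _ hpI

end Cyclo

section Chart

variable {R E F : Type*} [CommRing R] [IsDomain R] [IsDiscreteValuationRing R]
  [Field E] [Algebra R E] [IsFractionRing R E]
  [Field F] [Algebra E F] [Algebra R F] [IsScalarTower R E F]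

omit [IsDomain R] [IsDiscreteValuationRing R] [Field E] [Algebra R E] [IsFractionRing R E]
  [Algebra E F] [IsScalarTower R E F] in
/-- `LocOneR` in terms of `locRing`. -/
theorem locOneR_iff_locRing {B : Subalgebra R F} {n : Ideal B} [hn : n.IsPrime] {r : R} {u : F} :
    LocOneR B n r u ↔ ∃ t ∈ locRing F n, u = 1 + algebraMap R F r * t :=
  locOneR_iff hn

/-- One-sided form of WPS: `n` lies on `P` and not on `P'`. -/
theorem wps_aux [CharZero E] (p : ℕ) (hp : p.Prime) (hpR : (p : R) ∈ IsLocalRing.maximalIdeal R)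
    (ζ : R) (hζ : IsPrimitiveRoot ζ p)
    (w : R) (x : F) (B : Subalgebra R F) (hB : ChartCtx E w x B)
    (c : SSChart w B) (u : F) (hu : u ≠ 0) (hdiv : DivisibleDiv E p u) (hs : IsSplit B c u)
    (P P' : Ideal B) (hP : P.IsPrime) (hP' : P'.IsPrime)
    (hinf : P ⊓ P' = Ideal.span {algebraMap R B w}) (h12 : ¬ P ≤ P') (h21 : ¬ P' ≤ P)
    (hnorm : IsIntegrallyClosed (B ⧸ P)) (hdeep : LocOneR B P ((ζ - 1) ^ p * w) u)
    (n : Ideal B) (hn : n.IsMaximal) (hPn : P ≤ n) (hP'n : ¬ P' ≤ n) :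
    ∃ d : F, d ≠ 0 ∧ LocOneR B n ((ζ - 1) ^ p) (u * d ^ p) ∧
      LocOneR B P (ζ - 1) d ∧ LocOneR B P' (ζ - 1) d := by
  obtain ⟨hN, hIC, hFr⟩ := chart_package w x B hB
  haveI := hN
  haveI := hIC
  haveI := hFr
  haveI := hP
  haveI := hP'
  haveI hnp : n.IsPrime := hn.isPrime
  have hwB0 : algebraMap R B w ≠ 0 := fun h0 =>
    hB.hw.ne_zero (algebraMap_chart_injective (E := E) B (by rw [h0, map_zero]))
  have hwP : algebraMap R B w ∈ P := by
    have : algebraMap R B w ∈ P ⊓ P' := hinf ▸ Ideal.mem_span_singleton_self _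
    exact this.1
  have hD : IsDedekindDomain (B ⧸ P) := isDedekindDomain_component w x B hB P hwP hnorm
  have hDD : DivisibleDivisor B p u := divisibleDivisor_of_divisibleDiv w hB.hw B c p u hdiv hs
  -- the arithmetic of `λ = ζ - 1` in `R`
  have hlam0 : ζ - 1 ≠ 0 := IsPrimitiveRoot.sub_one_ne_zero hp.one_lt hζ
  have hlamm : ζ - 1 ∈ IsLocalRing.maximalIdeal R :=
    sub_one_mem_of_natCast_mem hp hζ (IsLocalRing.maximalIdeal R) hpR
  obtain ⟨e, η, hlam⟩ := IsDiscreteValuationRing.eq_unit_mul_pow_irreducible hlam0 hB.hw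
  have he : 0 < e := by
    rcases Nat.eq_zero_or_pos e with h0 | h0
    · exfalso
      rw [h0, pow_zero, mul_one] at hlam
      rw [hlam] at hlamm
      exact (IsLocalRing.mem_maximalIdeal _).1 hlamm η.isUnit
    · exact h0
  obtain ⟨κ₀, hκ₀⟩ := sub_one_pow_dvd_natCast hp hζ
  have hκ : (p : R) = (κ₀ * (η : R) ^ (p - 1)) * w ^ (e * (p - 1)) := by
    rw [hκ₀, hlam, mul_pow, ← pow_mul]
    ring
  have hκB : ((p : ℕ) : B) = algebraMap R B (κ₀ * (η : R) ^ (p - 1)) *
      algebraMap R B w ^ (e * (p - 1)) := by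
    have := congrArg (algebraMap R B) hκ
    rwa [map_natCast, map_mul, map_pow] at this
  have hηη : (η : R) * ((η⁻¹ : Rˣ) : R) = 1 := by
    rw [← Units.val_mul, mul_inv_cancel, Units.val_one]
  have hRBF : ∀ r : R, algebraMap B F (algebraMap R B r) = algebraMap R F r := fun r => rfl
  -- the hypothesis
  have hu1 : ∃ v ∈ locRing F P, u = 1 + algebraMap B F (algebraMap R B w) ^ (p * e + 1) * v := by
    obtain ⟨t, ht, hut⟩ := locOneR_iff_locRing.1 hdeep
    refine ⟨algebraMap B F (algebraMap R B ((η : R) ^ p)) * t,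
      (locRing F P).mul_mem (algebraMap_mem_locRing P _) ht, ?_⟩
    rw [hut, hRBF, hRBF, hlam, ← mul_assoc, ← map_pow, ← map_mul]
    congr 3
    rw [mul_pow, ← pow_mul, pow_succ, mul_comm e p]
    ring
  obtain ⟨d, hd0, ⟨o, ho, hud⟩, ⟨v, hv, hdv⟩, ⟨v', hv', hdv'⟩⟩ :=
    wps_abs (F := F) (algebraMap R B w) hwB0 P P' hinf h12 h21 hD n hn hPn hP'n p e hp he _ hκB
      u hu hDD hu1
  have hlamF : algebraMap R F (ζ - 1) * algebraMap R F ((η⁻¹ : Rˣ) : R)
      = algebraMap R F w ^ e := by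
    rw [← map_mul, ← map_pow, hlam]
    congr 1
    linear_combination (w ^ e) * hηη
  refine ⟨d, hd0, ?_, ?_, ?_⟩
  · refine locOneR_iff_locRing.2 ⟨algebraMap B F (algebraMap R B (((η⁻¹ : Rˣ) : R) ^ p)) * o,
      (locRing F n).mul_mem (algebraMap_mem_locRing n _) ho, ?_⟩
    rw [hud, hRBF, hRBF, ← mul_assoc, map_pow, map_pow, ← mul_pow, hlamF, ← pow_mul, mul_comm e p]
  · refine locOneR_iff_locRing.2 ⟨algebraMap B F (algebraMap R B ((η⁻¹ : Rˣ) : R)) * v,
      (locRing F P).mul_mem (algebraMap_mem_locRing P _) hv, ?_⟩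
    rw [hdv, hRBF, hRBF, ← mul_assoc, hlamF]
  · refine locOneR_iff_locRing.2 ⟨algebraMap B F (algebraMap R B ((η⁻¹ : Rˣ) : R)) * v',
      (locRing F P').mul_mem (algebraMap_mem_locRing P' _) hv', ?_⟩
    rw [hdv', hRBF, hRBF, ← mul_assoc, hlamF]

end Chart

section Leaf

/-- `DeepOne` implies `IsSplit` (constant `1` on both components). -/
theorem isSplit_of_deepOne {R F : Type*} [CommRing R] [Field F] [Algebra R F] {w : R}
    (B : Subalgebra R F) (c : SSChart w B) (p : ℕ) (lam : R) (u : F)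
    (h : DeepOne B c p lam u) : IsSplit B c u := by
  have hw : algebraMap R B w ∈ c.p₁ ⊓ c.p₂ := by
    rw [c.inf_eq]
    exact Ideal.mem_span_singleton_self _
  have key : ∀ P : Ideal B, algebraMap R B w ∈ P → LocOneR B P (lam ^ p * w) u →
      ConstAt B P u := by
    rintro P hwP ⟨a, b, hb, hab, hu⟩
    refine ⟨1, isUnit_one, a, b, hb, ?_, hu⟩
    rw [map_one, one_mul]
    obtain ⟨z, hz⟩ := Ideal.mem_span_singleton'.1 hab
    rw [← hz, map_mul]
    exact P.mul_mem_left _ (P.mul_mem_left _ hwP)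
  exact ⟨key _ hw.1 h.1, key _ hw.2 h.2⟩

/-- **Leaf WPS** (wild purity at a closed point lying on one component). -/
theorem wpSmoothLeaf : Fermat.Agent.Ribet.H495.AlgP.WPSmoothLeaf := by
  intro R E F _ _ _ _ _ _ _ _ _ _ _ _ _ p hp hp2 hpR ζ hζ w x B hB c hc u hu hdiv hdeep n hn hwn h1
  have hs : IsSplit B c u := isSplit_of_deepOne B c p (ζ - 1) u hdeep
  have hle : c.p₁ * c.p₂ ≤ n := by
    refine le_trans Ideal.mul_le_inf ?_
    rw [c.inf_eq, Ideal.span_singleton_le_iff_mem]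
    exact hwn
  rcases (Ideal.IsPrime.mul_le hn.isPrime).1 hle with h | h
  · have h2 : ¬ c.p₂ ≤ n := fun h2 => h1 ⟨h, h2⟩
    obtain ⟨d, hd0, hdn, hd1, hd2⟩ := wps_aux (E := E) p hp hpR ζ hζ w x B hB c u hu hdiv hs
      c.p₁ c.p₂ c.prime₁ c.prime₂ c.inf_eq hc.1 hc.2 c.normal₁ hdeep.1 n hn h h2
    exact ⟨d, hd0, hdn, ⟨0, by rwa [pow_zero, map_one, one_mul]⟩,
      ⟨0, by rwa [pow_zero, map_one, one_mul]⟩⟩
  · have h2 : ¬ c.p₁ ≤ n := fun h2 => h1 ⟨h2, h⟩
    obtain ⟨d, hd0, hdn, hd2, hd1⟩ := wps_aux (E := E) p hp hpR ζ hζ w x B hB c u hu hdiv hs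
      c.p₂ c.p₁ c.prime₂ c.prime₁ (by rw [inf_comm]; exact c.inf_eq) hc.2 hc.1 c.normal₂
      hdeep.2 n hn h h2
    exact ⟨d, hd0, hdn, ⟨0, by rwa [pow_zero, map_one, one_mul]⟩,
      ⟨0, by rwa [pow_zero, map_one, one_mul]⟩⟩

end Leaf

end Fermat.Agent.Ribet.H754
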